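import Mathlib
import Fermat.Agent.CFT.Coh.HerbrandCyclic

/-!
# Raw bridge, part 0: three generic facts on `Ĥ⁰`, `Ĥ⁻¹` of modules over a finite cyclic group

In the vocabulary of `Coh/HerbrandCyclic` (`ρ : G →* AddMonoid.End A`, `h0`, `hm1`):

* `h_eq_of_left_trivial` : in an equivariant short exact sequence `0 → A → B → C → 0` with
  `Ĥ⁰(A) = Ĥ⁻¹(A) = 0`, the orders of `Ĥ⁰`, `Ĥ⁻¹` of `B` and `C` agree;
* `h_eq_of_semilinear` : invariance of `h0`, `hm1` under an isomorphism of modules which is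
  semilinear for an isomorphism of groups;
* `h_pi_trivial` : a full product of modules with `Ĥ⁰ = Ĥ⁻¹ = 0` has `Ĥ⁰ = Ĥ⁻¹ = 0`.
-/

set_option autoImplicit false

namespace Fermat.Agent.CFT.Global.RawBridge

open Fermat.Agent.CFT.Herbrand

section LeftTrivial

variable {G : Type*} [Group G] [Fintype G] [IsCyclic G] {A B C : Type*} [AddCommGroup A]
  [AddCommGroup B] [AddCommGroup C] {ρA : G →* AddMonoid.End A} {ρB : G →* AddMonoid.End B}
  {ρC : G →* AddMonoid.End C} {i : A →+ B} {p : B →+ C}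

/-- If the left term of an equivariant short exact sequence has trivial `Ĥ⁰` and `Ĥ⁻¹`, then the
orders of `Ĥ⁰` and of `Ĥ⁻¹` of the middle and right terms agree. -/
theorem h_eq_of_left_trivial (h : EquivExact ρA ρB ρC i p) (h0A : h0 ρA = 1)
    (hm1A : hm1 ρA = 1) : h0 ρB = h0 ρC ∧ hm1 ρB = hm1 ρC := by
  obtain ⟨σ, hσ⟩ := IsCyclic.exists_generator (α := G)
  have E := h.exact3 σ
  have h1 := E.idx_left
  have h2 := E.idx_mid
  have h3 := E.idx_right
  have h4 := E.symm.idx_left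
  have h5 := E.symm.idx_mid
  have h6 := E.symm.idx_right
  rw [idx_dEnd_nEnd _ hσ] at h1 h2 h3
  rw [idx_nEnd_dEnd _ hσ] at h4 h5 h6
  rw [h0A] at h1
  rw [hm1A] at h4
  have a1 := Nat.eq_one_of_mul_eq_one_right h1.symm
  have b1 := Nat.eq_one_of_mul_eq_one_left h1.symm
  have a2 := Nat.eq_one_of_mul_eq_one_right h4.symm
  have b2 := Nat.eq_one_of_mul_eq_one_left h4.symm
  constructor
  · rw [h2, h3, b1, a2, one_mul, mul_one]
  · rw [h5, h6, b2, a1, one_mul, mul_one]

end LeftTrivial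

section ChangeOfGroup

variable {G G' : Type*} [Group G] [Fintype G] [Group G'] [Fintype G'] {A B : Type*}
  [AddCommGroup A] [AddCommGroup B]

theorem invariants_comp_mulEquiv (ρ : G →* AddMonoid.End A) (e : G' ≃* G) :
    invariants (ρ.comp e.toMonoidHom) = invariants ρ := by
  ext a
  constructor
  · intro ha g
    obtain ⟨g', rfl⟩ := e.surjective g
    exact ha g'
  · intro ha g'
    exact ha (e g')

theorem nEnd_comp_mulEquiv (ρ : G →* AddMonoid.End A) (e : G' ≃* G) :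
    nEnd (ρ.comp e.toMonoidHom) = nEnd ρ := by
  ext a
  rw [nEnd_apply, nEnd_apply]
  exact Fintype.sum_equiv e.toEquiv _ _ (fun g => rfl)

theorem augRange_comp_mulEquiv (ρ : G →* AddMonoid.End A) (e : G' ≃* G) :
    augRange (ρ.comp e.toMonoidHom) = augRange ρ := by
  rw [augRange, augRange]
  exact e.surjective.iSup_comp (fun g : G => (dEnd ρ g).range)

theorem h0_comp_mulEquiv (ρ : G →* AddMonoid.End A) (e : G' ≃* G) :
    h0 (ρ.comp e.toMonoidHom) = h0 ρ := by
  rw [h0, h0, invariants_comp_mulEquiv, nEnd_comp_mulEquiv]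

theorem hm1_comp_mulEquiv (ρ : G →* AddMonoid.End A) (e : G' ≃* G) :
    hm1 (ρ.comp e.toMonoidHom) = hm1 ρ := by
  rw [hm1, hm1, augRange_comp_mulEquiv, nEnd_comp_mulEquiv]

/-- Invariance of `h0`, `hm1` under an isomorphism of modules which is semilinear for an
isomorphism of groups. -/
theorem h_eq_of_semilinear (ρ' : G' →* AddMonoid.End A) (ρ : G →* AddMonoid.End B)
    (e : G' ≃* G) (f : A ≃+ B) (hf : ∀ (g : G') (a : A), f (ρ' g a) = ρ (e g) (f a)) :
    h0 ρ' = h0 ρ ∧ hm1 ρ' = hm1 ρ := by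
  have hf' : ∀ (g : G') (a : A), f (ρ' g a) = (ρ.comp e.toMonoidHom) g (f a) := hf
  exact ⟨(h0_congr f hf').trans (h0_comp_mulEquiv ρ e),
    (hm1_congr f hf').trans (hm1_comp_mulEquiv ρ e)⟩

end ChangeOfGroup

section Product

variable {G : Type*} [Group G] [Fintype G] [IsCyclic G] {ι : Type*} {A : Type*} [AddCommGroup A]
  (ρ : G →* AddMonoid.End A) {M : ι → Type*} [∀ q, AddCommGroup (M q)]
  (ρM : ∀ q, G →* AddMonoid.End (M q)) (π : ∀ q, A →+ M q)

/-- A full product of modules with trivial `Ĥ⁰` and `Ĥ⁻¹` has trivial `Ĥ⁰` and `Ĥ⁻¹`. -/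
theorem h_pi_trivial (hπ : ∀ (q : ι) (g : G) (a : A), π q (ρ g a) = ρM q g (π q a))
    (hinj : ∀ a : A, (∀ q, π q a = 0) → a = 0)
    (hglue : ∀ m : ∀ q, M q, ∃ a : A, ∀ q, π q a = m q)
    (h0M : ∀ q, h0 (ρM q) = 1) (hm1M : ∀ q, hm1 (ρM q) = 1) : h0 ρ = 1 ∧ hm1 ρ = 1 := by
  have hn : ∀ (q : ι) (a : A), π q (nEnd ρ a) = nEnd (ρM q) (π q a) := by
    intro q a
    rw [nEnd_apply, nEnd_apply, map_sum]
    exact Finset.sum_congr rfl fun g _ => hπ q g a
  have heq : ∀ a b : A, (∀ q, π q a = π q b) → a = b := by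
    intro a b hab
    have := hinj (a - b) (fun q => by rw [map_sub, hab q, sub_self])
    exact sub_eq_zero.1 this
  obtain ⟨σ, hσ⟩ := IsCyclic.exists_generator (α := G)
  constructor
  · rw [h0, AddSubgroup.relIndex_eq_one]
    intro a ha
    have h1 : ∀ q, ∃ m : M q, nEnd (ρM q) m = π q a := by
      intro q
      have hq := h0M q
      rw [h0, AddSubgroup.relIndex_eq_one] at hq
      have hinv : π q a ∈ invariants (ρM q) := fun g => by rw [← hπ, ha g]
      exact hq hinv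
    choose m hm using h1
    obtain ⟨b, hb⟩ := hglue m
    refine ⟨b, heq _ _ fun q => ?_⟩
    rw [hn, hb, hm]
  · rw [hm1, AddSubgroup.relIndex_eq_one]
    intro a ha
    rw [AddMonoidHom.mem_ker] at ha
    have h1 : ∀ q, ∃ m : M q, dEnd (ρM q) σ m = π q a := by
      intro q
      have hq := hm1M q
      rw [hm1, AddSubgroup.relIndex_eq_one, ← range_dEnd (ρM q) hσ] at hq
      have hker : π q a ∈ (nEnd (ρM q)).ker := by
        rw [AddMonoidHom.mem_ker, ← hn, ha, map_zero]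
      exact hq hker
    choose m hm using h1
    obtain ⟨b, hb⟩ := hglue m
    rw [← range_dEnd ρ hσ]
    refine ⟨b, heq _ _ fun q => ?_⟩
    rw [dEnd_apply, map_sub, hπ, hb, ← dEnd_apply, hm]

end Product

end Fermat.Agent.CFT.Global.RawBridge
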