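import Mathlib
import Fermat.Agent.CFT.Global.Defs
import Fermat.Agent.CFT.Global.FirstIneq
import Fermat.Agent.CFT.Global.RawBridge.HerbrandAux

/-!
# Raw bridge, part 1: from the raw model `J_S(N) / N_S` to the idele class module `C_L`

`(G, L)` is a Galois pair (`G` finite, acting faithfully on the number field `L`),
`F = L^G` the fixed field (`FixF G L`), `galEquiv G L : G ≃* Gal(L/F)`.

* dictionary: the raw objects of `L7Defs` / `FIDefs` for the extension `L/F` are the objects of
  `Global/Defs` for the pair `(G, L)` (`actJ_galEquiv`, …; the underlying sets agree by `rfl`);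
* `equivExact_uOut` : `0 → U^S → C_L → C_S(L) → 0` is an equivariant exact sequence (`S ≠ ∅`);
* `h_uOut` : `U^S = ∏_{q ∉ S} U_q(L)` has trivial `Ĥ⁰`, `Ĥ⁻¹` if every `U_q(L)`, `q ∉ S`, has;
* `rawEquiv` : `J_S(L) / L_S ≃ C_S(L)` if `J_L = Lˣ · J_S · U^S`, semilinear for `galEquiv`;
* **`h_classRep_eq`** : under these hypotheses `|Ĥ⁰(G, C_L)| = |Ĥ⁰(Gal(L/F), J_S(L)/L_S)|` and the
  same for `Ĥ⁻¹` (`G` cyclic).
-/

set_option autoImplicit false

noncomputable section

namespace Fermat.Agent.CFT.Global.RawBridge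

open TensorProduct
open Fermat.Agent.CFT.Herbrand Fermat.Agent.CFT.Global
open scoped Fermat.Agent.CFT.Global

set_option linter.unusedSectionVars false

/-! ### The dictionary -/

section Dict

variable (G L : Type) [Group G] [Fintype G] [Field L] [NumberField L] [MulSemiringAction G L]
  [FaithfulSMul G L]

/-- The fixed field of a Galois pair, as a type. -/
abbrev FixF : Type := ↥(FixedPoints.subfield G L)

/-- `G ≃* Gal(L / L^G)`. -/
abbrev galEquiv : G ≃* (L ≃ₐ[FixF G L] L) := FixedPoints.toAlgAutMulEquiv G L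

theorem galEquiv_apply (g : G) (a : L) : galEquiv G L g a = g • a := rfl

theorem galAct_galEquiv (q : Nat.Primes) (g : G) (y : SemiLocal L q) :
    L7.galAct (FixF G L) L q (galEquiv G L g) y = g • y := by
  induction y using TensorProduct.induction_on with
  | zero => rw [map_zero, smul_zero]
  | tmul a c => rfl
  | add x y hx hy => rw [map_add, hx, hy, smul_add]

theorem actA_galEquiv (q : Nat.Primes) (g : G) (u : (SemiLocal L q)ˣ) :
    FI.actA (FixF G L) L q (galEquiv G L g) u = g • u := by
  apply Units.ext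
  exact galAct_galEquiv G L q g _

theorem actJ_galEquiv (g : G) (x : IdeleProd L) :
    FI.actJ (FixF G L) L (galEquiv G L g) x = g • x := by
  funext q
  exact actA_galEquiv G L q g (x q)

theorem actN_galEquiv (g : G) (u : Lˣ) :
    FI.actN (FixF G L) L (galEquiv G L g) u = g • u := by
  apply Units.ext
  rfl

theorem card_gal : Nat.card (L ≃ₐ[FixF G L] L) = Nat.card G :=
  (Nat.card_congr (galEquiv G L).toEquiv).symm

end Dict

section Sets

variable (L : Type) [Field L] [NumberField L] (S : Finset Nat.Primes)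

theorem locS_eq_sDiag (a : Lˣ) : L7.locS L S a = sDiag L S a := by
  funext q
  by_cases h : q ∈ S
  · rw [FI.locS_apply_of_mem L a h]
    simp only [sDiag, MonoidHom.coe_mk, OneHom.coe_mk, h, if_true]
    rfl
  · rw [FI.locS_apply_of_notMem L a h]
    simp only [sDiag, MonoidHom.coe_mk, OneHom.coe_mk, h, if_false]

theorem principal_eq_one_iff (q : Nat.Primes) (u : Lˣ) : principal L u q = 1 ↔ u = 1 := by
  constructor
  · intro h
    apply FI.loc_injective L q
    rw [map_one]
    exact h
  · rintro rfl
    rw [map_one]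
    rfl

/-- `J_S ∩ (Lˣ · U^S) ≤` the image of the `S`-units. -/
theorem exists_sUnit_of_mem (x : IdeleProd L) (hx : x ∈ supportedOn L S)
    (h : x ∈ (principal L).range ⊔ unitsOutside L S) :
    ∃ a : Lˣ, a ∈ L7.sUnits L S ∧ x = L7.locS L S a := by
  obtain ⟨y, ⟨u, rfl⟩, v, hv, rfl⟩ := Subgroup.mem_sup.1 h
  have hu : u ∈ L7.sUnits L S := by
    intro q hq
    have h1 : principal L u q * v q = 1 := hx q hq
    have h2 : principal L u q = (v q)⁻¹ := eq_inv_of_mul_eq_one_left h1
    show principal L u q ∈ localUnits L q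
    rw [h2]
    exact inv_mem (hv.1 q)
  refine ⟨u, hu, ?_⟩
  funext q
  by_cases hq : q ∈ S
  · rw [FI.locS_apply_of_mem L u hq]
    show principal L u q * v q = principal L u q
    rw [hv.2 q hq, mul_one]
  · rw [FI.locS_apply_of_notMem L u hq]
    exact hx q hq

/-- The image of an `S`-unit in `J_S` lies in `Lˣ · U^S`. -/
theorem locS_mem_sup (a : Lˣ) (ha : a ∈ L7.sUnits L S) :
    L7.locS L S a ∈ (principal L).range ⊔ unitsOutside L S := by
  have hv : L7.locS L S a * (principal L a)⁻¹ ∈ unitsOutside L S := by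
    refine ⟨fun q => ?_, fun q hq => ?_⟩
    · by_cases hq : q ∈ S
      · show L7.locS L S a q * (principal L a q)⁻¹ ∈ localUnits L q
        rw [FI.locS_apply_of_mem L a hq]
        have : L7.loc L q a * (principal L a q)⁻¹ = 1 := mul_inv_cancel _
        rw [this]
        exact one_mem _
      · show L7.locS L S a q * (principal L a q)⁻¹ ∈ localUnits L q
        rw [FI.locS_apply_of_notMem L a hq, one_mul]
        exact inv_mem (ha q hq)
    · show L7.locS L S a q * (principal L a q)⁻¹ = 1
      rw [FI.locS_apply_of_mem L a hq]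
      exact mul_inv_cancel _
  have hp : principal L a ∈ (principal L).range := ⟨a, rfl⟩
  have h := Subgroup.mul_mem_sup hp hv
  rwa [mul_comm, inv_mul_cancel_right] at h

end Sets

/-! ### The exact sequence `0 → U^S → C_L → C_S(L) → 0` -/

section Exact

variable (G L : Type) [Group G] [Fintype G] [Field L] [NumberField L] [MulSemiringAction G L]
  (S : Finset Nat.Primes)

/-- `U^S = ∏_{q ∉ S} U_q(L)` as a `G`-module. -/
def uOutRep : Rep ℤ G :=
  subRep G (unitsOutside L S) (fun g _ hx => smul_mem_unitsOutside G L S g hx)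

/-- The map `U^S → C_L`. -/
def uOutToClass : ↥(addSub (unitsOutside L S)) →+ ClassGroupOf L :=
  (Submodule.mkQ ((addSub (principal L).range).comap (addSub (finIdele L)).subtype)).toAddMonoidHom.comp
    (Submodule.inclusion (show addSub (unitsOutside L S) ≤ addSub (finIdele L) from
      fun _ hx => unitsOutside_le_finIdele L S hx)).toAddMonoidHom

theorem uOutToClass_apply (x : ↥(addSub (unitsOutside L S))) :
    uOutToClass L S x = Submodule.Quotient.mk
      (⟨(x : Additive (IdeleProd L)), unitsOutside_le_finIdele L S x.2⟩ :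
        ↥(addSub (finIdele L))) := rfl

/-- The map `C_L → C_S(L)`. -/
def classToS : ClassGroupOf L →+ ClassGroupSOf L S :=
  (Submodule.mapQ ((addSub (principal L).range).comap (addSub (finIdele L)).subtype)
    ((addSub ((principal L).range ⊔ unitsOutside L S)).comap (addSub (finIdele L)).subtype)
    LinearMap.id
    (fun x hx => by
      show (x : Additive (IdeleProd L)).toMul ∈ (principal L).range ⊔ unitsOutside L S
      exact (le_sup_left : (principal L).range ≤ _) hx)).toAddMonoidHom

theorem classToS_mk (x : ↥(addSub (finIdele L))) :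
    classToS L S (Submodule.Quotient.mk x) = Submodule.Quotient.mk x := rfl

theorem classToS_surjective : Function.Surjective (classToS L S) := by
  intro c
  induction c using Submodule.Quotient.induction_on with
  | _ x => exact ⟨Submodule.Quotient.mk x, rfl⟩

theorem uOutToClass_injective (hne : S.Nonempty) : Function.Injective (uOutToClass L S) := by
  rw [injective_iff_map_eq_zero]
  intro x hx
  rw [uOutToClass_apply, Submodule.Quotient.mk_eq_zero] at hx
  obtain ⟨u, hu⟩ : (x : Additive (IdeleProd L)).toMul ∈ (principal L).range := hx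
  obtain ⟨q₀, hq₀⟩ := hne
  have h1 : principal L u q₀ = 1 := by
    rw [hu]
    exact x.2.2 q₀ hq₀
  have h2 : u = 1 := (principal_eq_one_iff L q₀ u).1 h1
  apply Subtype.ext
  show (x : Additive (IdeleProd L)) = 0
  have h3 : (x : Additive (IdeleProd L)).toMul = 1 := by
    rw [← hu, h2, map_one]
  exact h3

theorem range_uOutToClass : (uOutToClass L S).range = (classToS L S).ker := by
  ext c
  rw [AddMonoidHom.mem_ker]
  constructor
  · rintro ⟨x, rfl⟩
    rw [uOutToClass_apply, classToS_mk, Submodule.Quotient.mk_eq_zero]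
    show (x : Additive (IdeleProd L)).toMul ∈ (principal L).range ⊔ unitsOutside L S
    exact (le_sup_right : unitsOutside L S ≤ _) x.2
  · intro hc
    induction c using Submodule.Quotient.induction_on with
    | _ y =>
      rw [classToS_mk, Submodule.Quotient.mk_eq_zero] at hc
      obtain ⟨u, hu, v, hv, huv⟩ := Subgroup.mem_sup.1
        (show (y : Additive (IdeleProd L)).toMul ∈ (principal L).range ⊔ unitsOutside L S
          from hc)
      refine ⟨⟨Additive.ofMul v, hv⟩, ?_⟩
      rw [uOutToClass_apply]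
      symm
      rw [Submodule.Quotient.eq]
      show ((y : Additive (IdeleProd L)) - Additive.ofMul v).toMul ∈ (principal L).range
      have : ((y : Additive (IdeleProd L)) - Additive.ofMul v).toMul = u := by
        show (y : Additive (IdeleProd L)).toMul / v = u
        rw [← huv, mul_div_cancel_right]
      rw [this]
      exact hu

/-- `0 → U^S → C_L → C_S(L) → 0` is an equivariant exact sequence. -/
theorem equivExact_uOut (hne : S.Nonempty) :
    EquivExact (ofRepresentation (uOutRep G L S).ρ) (ofRepresentation (classRep G L).ρ)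
      (ofRepresentation (classRepS G L S).ρ) (uOutToClass L S) (classToS L S) where
  inj := uOutToClass_injective L S hne
  surj := classToS_surjective L S
  exact := range_uOutToClass L S
  hi g a := rfl
  hp g b := by
    induction b using Submodule.Quotient.induction_on with
    | _ y => rfl

end Exact

/-! ### `U^S` is a full product -/

section Product

variable (G L : Type) [Group G] [Fintype G] [Field L] [NumberField L] [MulSemiringAction G L]
  (S : Finset Nat.Primes)

/-- The `q`-coordinate `U^S → U_q(L)`. -/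
def coordHom (q : Nat.Primes) : ↥(addSub (unitsOutside L S)) →+ ↥(addSub (localUnits L q)) where
  toFun x := ⟨Additive.ofMul ((x : Additive (IdeleProd L)).toMul q), x.2.1 q⟩
  map_zero' := rfl
  map_add' _ _ := rfl

/-- `U^S` has trivial `Ĥ⁰` and `Ĥ⁻¹` as soon as every `U_q(L)`, `q ∉ S`, has (`G` cyclic). -/
theorem h_uOut [IsCyclic G]
    (hU : ∀ q : Nat.Primes, q ∉ S → h0 (ofRepresentation (localUnitsRep G L q).ρ) = 1 ∧
      hm1 (ofRepresentation (localUnitsRep G L q).ρ) = 1) :
    h0 (ofRepresentation (uOutRep G L S).ρ) = 1 ∧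
      hm1 (ofRepresentation (uOutRep G L S).ρ) = 1 := by
  classical
  refine h_pi_trivial (ι := {q : Nat.Primes // q ∉ S}) (A := ↥(addSub (unitsOutside L S)))
    (ofRepresentation (uOutRep G L S).ρ)
    (M := fun q => ↥(addSub (localUnits L (q.1 : ℕ))))
    (fun q => ofRepresentation (localUnitsRep G L q.1).ρ)
    (fun q => coordHom L S q.1) ?_ ?_ ?_ (fun q => (hU q.1 q.2).1) (fun q => (hU q.1 q.2).2)
  · intro q g a
    rfl
  · intro (a : ↥(addSub (unitsOutside L S))) ha
    apply Subtype.ext
    show (a : Additive (IdeleProd L)).toMul = 1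
    funext q
    by_cases hq : q ∈ S
    · exact a.2.2 q hq
    · have h1 := ha ⟨q, hq⟩
      have h2 := congrArg (fun z : ↥(addSub (localUnits L (q : ℕ))) =>
        (z : Additive (SemiLocal L q)ˣ).toMul) h1
      exact h2
  · intro (m : ∀ q : {q : Nat.Primes // q ∉ S}, ↥(addSub (localUnits L (q.1 : ℕ))))
    let x : IdeleProd L := fun q =>
      if h : q ∈ S then 1 else
        ((m ⟨q, h⟩ : ↥(addSub (localUnits L (q : ℕ)))) : Additive (SemiLocal L q)ˣ).toMul
    have hx : x ∈ unitsOutside L S := by
      refine ⟨fun q => ?_, fun q hq => ?_⟩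
      · by_cases h : q ∈ S
        · simp only [x, h, dif_pos]
          exact one_mem _
        · simp only [x, h, dif_neg, not_false_eq_true]
          exact (m ⟨q, h⟩).2
      · simp only [x, hq, dif_pos]
    refine ⟨⟨Additive.ofMul x, hx⟩, fun q => ?_⟩
    apply Subtype.ext
    show Additive.ofMul (x q.1) = _
    simp only [x, q.2, dif_neg, not_false_eq_true]
    rfl

end Product

/-! ### `J_S(L) / L_S ≃ C_S(L)` -/

section Iso

variable (L : Type) [Field L] [NumberField L] (S : Finset Nat.Primes)

/-- The map `J_S(L) → C_S(L)`. -/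
def sToClassS : L7.Jsupp L S →* Multiplicative (ClassGroupSOf L S) where
  toFun x := Multiplicative.ofAdd (Submodule.Quotient.mk
    (⟨Additive.ofMul (x : IdeleProd L), supportedOn_le_finIdele L S x.2⟩ :
      ↥(addSub (finIdele L))))
  map_one' := rfl
  map_mul' _ _ := rfl

theorem imgS_le_ker : FI.imgS L S ≤ (sToClassS L S).ker := by
  rintro _ ⟨a, rfl⟩
  rw [MonoidHom.mem_ker]
  show Multiplicative.ofAdd (Submodule.Quotient.mk _) = Multiplicative.ofAdd 0
  congr 1
  rw [Submodule.Quotient.mk_eq_zero]
  exact locS_mem_sup L S a a.2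

/-- The map `J_S(L) / L_S → C_S(L)`. -/
def rawHom : Additive (L7.Jsupp L S ⧸ FI.imgS L S) →+ ClassGroupSOf L S :=
  MonoidHom.toAdditiveLeft (QuotientGroup.lift (FI.imgS L S) (sToClassS L S) (imgS_le_ker L S))

theorem rawHom_mk (x : L7.Jsupp L S) :
    rawHom L S (Additive.ofMul (QuotientGroup.mk x)) = Submodule.Quotient.mk
      (⟨Additive.ofMul (x : IdeleProd L), supportedOn_le_finIdele L S x.2⟩ :
        ↥(addSub (finIdele L))) := rfl

theorem rawHom_injective : Function.Injective (rawHom L S) := by
  rw [injective_iff_map_eq_zero]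
  intro a ha
  obtain ⟨x, hx⟩ := QuotientGroup.mk_surjective (Additive.toMul a)
  have hax : a = Additive.ofMul (QuotientGroup.mk x) := by
    rw [hx]
    rfl
  rw [hax, rawHom_mk, Submodule.Quotient.mk_eq_zero] at ha
  obtain ⟨b, hb, hxb⟩ := exists_sUnit_of_mem L S (x : IdeleProd L) x.2 ha
  have hx' : x ∈ FI.imgS L S := ⟨⟨b, hb⟩, Subtype.ext hxb.symm⟩
  have h1 : (QuotientGroup.mk x : L7.Jsupp L S ⧸ FI.imgS L S) = 1 :=
    (QuotientGroup.eq_one_iff x).2 hx'
  rw [hax, h1]
  rfl

theorem rawHom_surjective
    (hcl : finIdele L ≤ (principal L).range ⊔ supportedOn L S ⊔ unitsOutside L S) :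
    Function.Surjective (rawHom L S) := by
  intro c
  induction c using Submodule.Quotient.induction_on with
  | _ y =>
    obtain ⟨us, hus, v, hv, husv⟩ := Subgroup.mem_sup.1
      (hcl (show (y : Additive (IdeleProd L)).toMul ∈ finIdele L from y.2))
    obtain ⟨u, hu, s, hs, hus'⟩ := Subgroup.mem_sup.1 hus
    refine ⟨Additive.ofMul (QuotientGroup.mk ⟨s, hs⟩), ?_⟩
    rw [rawHom_mk, Submodule.Quotient.eq]
    show s / (y : Additive (IdeleProd L)).toMul ∈ (principal L).range ⊔ unitsOutside L S
    have h1 : s / (y : Additive (IdeleProd L)).toMul = (u * v)⁻¹ := by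
      rw [← husv, ← hus', mul_comm u s, mul_assoc, div_mul_cancel_left]
    rw [h1]
    exact inv_mem (Subgroup.mul_mem_sup hu hv)

/-- `J_S(L) / L_S ≃ C_S(L)` when `J_L = Lˣ · J_S · U^S`. -/
def rawEquiv (hcl : finIdele L ≤ (principal L).range ⊔ supportedOn L S ⊔ unitsOutside L S) :
    Additive (L7.Jsupp L S ⧸ FI.imgS L S) ≃+ ClassGroupSOf L S :=
  AddEquiv.ofBijective (rawHom L S) ⟨rawHom_injective L S, rawHom_surjective L S hcl⟩

theorem rawEquiv_apply
    (hcl : finIdele L ≤ (principal L).range ⊔ supportedOn L S ⊔ unitsOutside L S)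
    (a : Additive (L7.Jsupp L S ⧸ FI.imgS L S)) : rawEquiv L S hcl a = rawHom L S a := rfl

end Iso

/-! ### The bridge -/

section Bridge

variable (G L : Type) [Group G] [Fintype G] [Field L] [NumberField L] [MulSemiringAction G L]
  [FaithfulSMul G L] (S : Finset Nat.Primes)

/-- `rawHom` is semilinear for `galEquiv`. -/
theorem rawHom_equivariant_mk (g : G) (x : L7.Jsupp L S) :
    rawHom L S (FI.mRho (FixF G L) L S (galEquiv G L g) (Additive.ofMul (QuotientGroup.mk x))) =
      ofRepresentation (classRepS G L S).ρ g (rawHom L S (Additive.ofMul (QuotientGroup.mk x))) := by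
  have h1 : FI.mRho (FixF G L) L S (galEquiv G L g) (Additive.ofMul (QuotientGroup.mk x)) =
      Additive.ofMul (QuotientGroup.mk
        (FI.subAct (FI.actJ (FixF G L) L) (L7.Jsupp L S) (FI.actJ_mem_Jsupp (FixF G L) L S)
          (galEquiv G L g) x)) := rfl
  rw [h1, rawHom_mk, rawHom_mk]
  have h2 : ofRepresentation (classRepS G L S).ρ g (Submodule.Quotient.mk
      (⟨Additive.ofMul (x : IdeleProd L), supportedOn_le_finIdele L S x.2⟩ :
        ↥(addSub (finIdele L)))) =
      Submodule.Quotient.mk ((ideleRep G L).ρ g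
        (⟨Additive.ofMul (x : IdeleProd L), supportedOn_le_finIdele L S x.2⟩ :
          ↥(addSub (finIdele L)))) := rfl
  rw [h2]
  refine congrArg Submodule.Quotient.mk (Subtype.ext ?_)
  show Additive.ofMul (FI.actJ (FixF G L) L (galEquiv G L g) (x : IdeleProd L)) =
    Additive.ofMul (g • (x : IdeleProd L))
  rw [actJ_galEquiv]

theorem rawHom_equivariant (g : G) (a : Additive (L7.Jsupp L S ⧸ FI.imgS L S)) :
    rawHom L S (FI.mRho (FixF G L) L S (galEquiv G L g) a) =
      ofRepresentation (classRepS G L S).ρ g (rawHom L S a) := by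
  obtain ⟨x, hx⟩ := QuotientGroup.mk_surjective (Additive.toMul a)
  have ha : a = Additive.ofMul (QuotientGroup.mk x) := by
    rw [hx]
    rfl
  rw [ha]
  exact rawHom_equivariant_mk G L S g x

/-- **The bridge.**  For a cyclic Galois pair `(G, L)` and `S ≠ ∅` such that
`J_L = Lˣ · J_S · U^S` and every `U_q(L)`, `q ∉ S`, has trivial `Ĥ⁰` and `Ĥ⁻¹`:
`|Ĥ⁰(G, C_L)| = |Ĥ⁰(Gal(L/F), J_S(L)/L_S)|` and `|Ĥ⁻¹(G, C_L)| = |Ĥ⁻¹(Gal(L/F), J_S(L)/L_S)|`. -/
theorem h_classRep_eq [IsCyclic G] (hne : S.Nonempty)
    (hcl : finIdele L ≤ (principal L).range ⊔ supportedOn L S ⊔ unitsOutside L S)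
    (hU : ∀ q : Nat.Primes, q ∉ S → h0 (ofRepresentation (localUnitsRep G L q).ρ) = 1 ∧
      hm1 (ofRepresentation (localUnitsRep G L q).ρ) = 1) :
    h0 (ofRepresentation (classRep G L).ρ) =
        h0 (A := Additive (L7.Jsupp L S ⧸ FI.imgS L S)) (FI.mRho (FixF G L) L S) ∧
      hm1 (ofRepresentation (classRep G L).ρ) =
        hm1 (A := Additive (L7.Jsupp L S ⧸ FI.imgS L S)) (FI.mRho (FixF G L) L S) := by
  obtain ⟨hu0, hu1⟩ := h_uOut G L S hU
  obtain ⟨h1, h2⟩ := h_eq_of_left_trivial (equivExact_uOut G L S hne) hu0 hu1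
  obtain ⟨h3, h4⟩ := h_eq_of_semilinear (A := ClassGroupSOf L S)
    (B := Additive (L7.Jsupp L S ⧸ FI.imgS L S)) (ofRepresentation (classRepS G L S).ρ)
    (FI.mRho (FixF G L) L S) (galEquiv G L) (rawEquiv L S hcl).symm (by
      intro g c
      apply (rawEquiv L S hcl).injective
      rw [AddEquiv.apply_symm_apply, rawEquiv_apply, rawHom_equivariant, ← rawEquiv_apply L S hcl,
        AddEquiv.apply_symm_apply]
      rfl)
  exact ⟨h1.trans h3, h2.trans h4⟩

end Bridge

end Fermat.Agent.CFT.Global.RawBridge
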