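import Mathlib
import Fermat.Agent.CFT.Global.RawBridge

/-!
# The first inequality for cyclic layers of odd degree ("FirstIneqCyc")

For a Galois pair `(G, L)` with `G` cyclic of odd order `n` (not only of prime order):
`Ĥ⁰(G, C_L)` and `Ĥ⁻¹(G, C_L)` are finite and `h(G, C_L) = n`.

Same proof as `RawBridge.firstIneq_of_units`, with `FI.herbrand_mRho` (any odd cyclic degree)
instead of `FI.herbrand_mRho_prime`.  As there, the only input not yet on main is the `h0` clause
of `Plan.LocUnitsAcyclic` ([C3]).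
-/

set_option autoImplicit false

namespace Fermat.Agent.CFT.Global.RawBridge

open Fermat.Agent.CFT.Herbrand Fermat.Agent.CFT.Global
open scoped Fermat.Agent.CFT.Global

/-- The fixed-field extension of a cyclic Galois pair is cyclic. -/
theorem isCyclic_gal (G L : Type) [Group G] [Fintype G] [IsCyclic G] [Field L] [NumberField L]
    [MulSemiringAction G L] [FaithfulSMul G L] : IsCyclic (L ≃ₐ[FixF G L] L) :=
  isCyclic_of_surjective (galEquiv G L).toMonoidHom (galEquiv G L).surjective

/-- `[L : L^G] = |G|`. -/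
theorem finrank_fixF (G L : Type) [Group G] [Fintype G] [Field L] [NumberField L]
    [MulSemiringAction G L] [FaithfulSMul G L] : Module.finrank (FixF G L) L = Nat.card G := by
  rw [FixedPoints.finrank_eq_card G L, Nat.card_eq_fintype_card]

/-- **FirstIneqCyc, with the minimal hypothesis**: for every cyclic Galois pair of odd order,
`Ĥ⁰(G, C_L)`, `Ĥ⁻¹(G, C_L)` are finite and `h(G, C_L) = |G|`. -/
theorem herbrand_classRep_of_units
    (hU0 : ∀ (G L : Type) [Group G] [Fintype G] [IsCyclic G] [Field L] [NumberField L]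
      [MulSemiringAction G L] [FaithfulSMul G L] (q : ℕ) [Fact q.Prime], UnramAt L q →
      h0 (ofRepresentation (localUnitsRep G L q).ρ) = 1)
    (G L : Type) [Group G] [Fintype G] [IsCyclic G] [Field L] [NumberField L]
    [MulSemiringAction G L] [FaithfulSMul G L] (hodd : Odd (Nat.card G)) :
    IsFinH (ofRepresentation (classRep G L).ρ) ∧
      herbrand (ofRepresentation (classRep G L).ρ) = Nat.card G := by
  obtain ⟨S₀, hS₀⟩ := IdeleStructure.classGroupTrivial L
  obtain ⟨S, hS, hne, hunr⟩ := UnramFinite.exists_unramOutside_supset L S₀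
  have hU : ∀ q : Nat.Primes, q ∉ S →
      h0 (ofRepresentation (localUnitsRep G L q).ρ) = 1 ∧
        hm1 (ofRepresentation (localUnitsRep G L q).ρ) = 1 := fun q hq => by
    have h := hU0 G L q (hunr q hq)
    exact ⟨h, hm1_localUnits_of_h0 G L q h⟩
  obtain ⟨e0, e1⟩ := h_classRep_eq G L S hne (hS₀ S hS) hU
  haveI : IsCyclic (L ≃ₐ[FixF G L] L) := isCyclic_gal G L
  have hodd' : Odd (Module.finrank (FixF G L) L) := by
    rw [finrank_fixF]
    exact hodd
  obtain ⟨hfin, hh⟩ := FI.herbrand_mRho (FixF G L) L hodd' S hne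
  refine ⟨⟨?_, ?_⟩, ?_⟩
  · rw [e0]
    exact hfin.1
  · rw [e1]
    exact hfin.2
  · rw [herbrand, e0, e1, ← finrank_fixF G L]
    exact hh

/-- **FirstIneqCyc** from `Plan.LocUnitsAcyclic` ([C3]; only its `h0` clause is used). -/
theorem herbrand_classRep (hC3 : Plan.LocUnitsAcyclic)
    (G L : Type) [Group G] [Fintype G] [IsCyclic G] [Field L] [NumberField L]
    [MulSemiringAction G L] [FaithfulSMul G L] (hodd : Odd (Nat.card G)) :
    IsFinH (ofRepresentation (classRep G L).ρ) ∧
      herbrand (ofRepresentation (classRep G L).ρ) = Nat.card G :=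
  herbrand_classRep_of_units (fun G L _ _ _ _ _ _ _ q _ hq => (hC3 G L q hq).2) G L hodd

/-- Corollary in `ℕ`: `|Ĥ⁰(G, C_L)| = |G| · |Ĥ⁻¹(G, C_L)|` for every cyclic Galois pair of odd
order. -/
theorem h0_classRep_eq_mul (hC3 : Plan.LocUnitsAcyclic)
    (G L : Type) [Group G] [Fintype G] [IsCyclic G] [Field L] [NumberField L]
    [MulSemiringAction G L] [FaithfulSMul G L] (hodd : Odd (Nat.card G)) :
    h0 (ofRepresentation (classRep G L).ρ) =
      Nat.card G * hm1 (ofRepresentation (classRep G L).ρ) := by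
  obtain ⟨hfin, hh⟩ := herbrand_classRep hC3 G L hodd
  rw [herbrand, div_eq_iff (Nat.cast_ne_zero.2 hfin.2)] at hh
  exact_mod_cast hh

end Fermat.Agent.CFT.Global.RawBridge
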